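import Fermat.Agent.DSupp.Supp

/-!
The support argument for homomorphisms of a finitely generated group.
-/

set_option autoImplicit false

noncomputable section

namespace Fermat.Agent.DSupp

open IsLocalRing

/-- equivariant maps -/
theorem map_lift {V M N ι : Type*} [CommRing V] [AddCommGroup M] [Module V M] [AddCommGroup N]
    [Module V N] (T : ι → Module.End V M) (T' : ι → Module.End V N) (f : M →ₗ[V] N)
    (hf : ∀ i x, f (T i x) = T' i (f x)) (w : FreeAlgebra V ι) (x : M) :
    f (FreeAlgebra.lift V T w x) = FreeAlgebra.lift V T' w (f x) := by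
  induction w using FreeAlgebra.induction generalizing x with
  | grade0 r =>
    rw [AlgHom.commutes, AlgHom.commutes, Module.algebraMap_end_apply,
      Module.algebraMap_end_apply, map_smul]
  | grade1 i => rw [FreeAlgebra.lift_ι_apply, FreeAlgebra.lift_ι_apply, hf]
  | mul a b ha hb => rw [map_mul, map_mul, Module.End.mul_apply, Module.End.mul_apply, ha, hb]
  | add a b ha hb => rw [map_add, map_add, LinearMap.add_apply, LinearMap.add_apply, map_add, ha, hb]

section grp

variable {Γ : Type*} [Group Γ] (P : Set Γ)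

/-- homomorphisms killing `P` -/
def HP (R A : Type*) [Ring R] [AddCommGroup A] [Module R A] : Submodule R (Additive Γ →+ A) where
  carrier := {x | ∀ γ ∈ P, x (Additive.ofMul γ) = 0}
  add_mem' {x y} hx hy γ hγ := by
    rw [AddMonoidHom.add_apply, hx γ hγ, hy γ hγ, add_zero]
  zero_mem' γ _ := rfl
  smul_mem' c x hx γ hγ := by
    change c • x (Additive.ofMul γ) = 0
    rw [hx γ hγ, smul_zero]

variable {P}

theorem mem_HP {R A : Type*} [Ring R] [AddCommGroup A] [Module R A] {x : Additive Γ →+ A} :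
    x ∈ HP P R A ↔ ∀ γ ∈ P, x (Additive.ofMul γ) = 0 := Iff.rfl

/-- Divisibility of the values can be tested on generators. -/
theorem mem_of_gen {A : Type*} [AddCommGroup A] {s : Set Γ} (hs : Subgroup.closure s = ⊤)
    (x : Additive Γ →+ A) (B : AddSubgroup A) (h : ∀ γ ∈ s, x (Additive.ofMul γ) ∈ B) (γ : Γ) :
    x (Additive.ofMul γ) ∈ B := by
  have hγ : γ ∈ Subgroup.closure s := by rw [hs]; trivial
  induction hγ using Subgroup.closure_induction with
  | mem γ hγ => exact h γ hγ
  | one => rw [ofMul_one, map_zero]; exact zero_mem _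
  | mul a b _ _ ha hb => rw [ofMul_mul, map_add]; exact add_mem ha hb
  | inv a _ ha => rw [ofMul_inv, map_neg]; exact neg_mem ha

theorem eq_of_gen {A : Type*} [AddCommGroup A] {s : Set Γ} (hs : Subgroup.closure s = ⊤)
    {x y : Additive Γ →+ A} (h : ∀ γ ∈ s, x (Additive.ofMul γ) = y (Additive.ofMul γ)) :
    x = y := by
  refine AddMonoidHom.ext fun γ => ?_
  have h1 := mem_of_gen hs (x - y) ⊥ (fun γ hγ => by
    rw [AddSubgroup.mem_bot, AddMonoidHom.sub_apply, h γ hγ, sub_self]) (Additive.toMul γ)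
  rw [AddSubgroup.mem_bot, AddMonoidHom.sub_apply, sub_eq_zero] at h1
  exact h1

section val

variable {V : Type*} [CommRing V] [IsDomain V]

/-- division of a homomorphism -/
theorem exists_div (x : Additive Γ →+ V) {c : V} (hc : c ≠ 0)
    (h : ∀ γ : Γ, c ∣ x (Additive.ofMul γ)) : ∃ y : Additive Γ →+ V, x = c • y := by
  choose y hy using h
  refine ⟨AddMonoidHom.mk' (fun γ => y (Additive.toMul γ)) fun a b => ?_, ?_⟩
  · apply mul_left_cancel₀ hc
    rw [mul_add, ← hy, ← hy, ← hy, ofMul_toMul, ofMul_toMul, ofMul_toMul, map_add]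
  · refine AddMonoidHom.ext fun γ => ?_
    exact hy (Additive.toMul γ)

theorem mem_HP_of_smul {x : Additive Γ →+ V} {c : V} (hc : c ≠ 0) (h : c • x ∈ HP P V V) :
    x ∈ HP P V V := fun γ hγ => by
  have h1 : c * x (Additive.ofMul γ) = 0 := h γ hγ
  exact (mul_eq_zero.mp h1).resolve_left hc

variable [ValuationRing V]

/-- There is a value which divides all the values. -/
theorem exists_dvd {s : Finset Γ} (hs : Subgroup.closure (s : Set Γ) = ⊤)
    (x : Additive Γ →+ V) : ∃ γ₀ : Γ, ∀ γ : Γ, x (Additive.ofMul γ₀) ∣ x (Additive.ofMul γ) := by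
  classical
  have h1 : ∀ t : Finset Γ, ∃ γ₀ : Γ, ∀ γ ∈ t, x (Additive.ofMul γ₀) ∣ x (Additive.ofMul γ) := by
    intro t
    induction t using Finset.induction_on with
    | empty => exact ⟨1, fun γ hγ => absurd hγ (Finset.notMem_empty γ)⟩
    | insert a t _ ih =>
      obtain ⟨γ₀, h⟩ := ih
      rcases ValuationRing.dvd_total (x (Additive.ofMul γ₀)) (x (Additive.ofMul a)) with h2 | h2
      · refine ⟨γ₀, fun γ hγ => ?_⟩
        rcases Finset.mem_insert.mp hγ with rfl | hγ
        · exact h2
        · exact h γ hγ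
      · refine ⟨a, fun γ hγ => ?_⟩
        rcases Finset.mem_insert.mp hγ with rfl | hγ
        · exact dvd_rfl
        · exact h2.trans (h γ hγ)
  obtain ⟨γ₀, h⟩ := h1 s
  refine ⟨γ₀, fun γ => ?_⟩
  have h2 := mem_of_gen hs x (Ideal.span {x (Additive.ofMul γ₀)}).toAddSubgroup
    (fun γ hγ => Ideal.mem_span_singleton.mpr (h γ hγ)) γ
  exact Ideal.mem_span_singleton.mp h2

/-- the module is finite -/
theorem finite_HP {s : Finset Γ} (hs : Subgroup.closure (s : Set Γ) = ⊤) :
    Module.Finite V (HP P V V) := by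
  let E : HP P V V →ₗ[V] (s → V) :=
    { toFun := fun x γ => x.1 (Additive.ofMul γ.1)
      map_add' := fun x y => rfl
      map_smul' := fun c x => rfl }
  have hE : Function.Injective E := by
    intro x y h
    exact Subtype.ext (eq_of_gen hs fun γ hγ => congrFun h ⟨γ, hγ⟩)
  have htor : Submodule.torsion V ((s → V) ⧸ LinearMap.range E) = ⊥ := by
    rw [eq_bot_iff]
    rintro v ⟨⟨c, hc⟩, hcv⟩
    obtain ⟨v, rfl⟩ := Submodule.Quotient.mk_surjective _ v
    have hc0 : c ≠ 0 := nonZeroDivisors.ne_zero hc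
    have h1 : c • v ∈ LinearMap.range E := by
      rw [← Submodule.Quotient.mk_eq_zero]
      exact hcv
    obtain ⟨x, hx⟩ := h1
    obtain ⟨y, hy⟩ := exists_div x.1 hc0 fun γ => by
      have h2 := mem_of_gen hs x.1 (Ideal.span {c}).toAddSubgroup
        (fun γ hγ => Ideal.mem_span_singleton.mpr ⟨v ⟨γ, hγ⟩, congrFun hx ⟨γ, hγ⟩⟩) γ
      exact Ideal.mem_span_singleton.mp h2
    rw [Submodule.mem_bot, Submodule.Quotient.mk_eq_zero]
    refine ⟨⟨y, mem_HP_of_smul hc0 (hy ▸ x.2)⟩, ?_⟩
    funext γ
    apply mul_left_cancel₀ hc0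
    have h3 := congrFun hx γ
    have h4 : x.1 (Additive.ofMul γ.1) = c * y (Additive.ofMul γ.1) := by
      rw [hy]; rfl
    exact h4.symm.trans h3
  have hflat : Module.Flat V ((s → V) ⧸ LinearMap.range E) :=
    Module.Flat.flat_iff_torsion_eq_bot_of_isBezout.mpr htor
  have hfree : Module.Free V ((s → V) ⧸ LinearMap.range E) := Module.free_of_flat_of_isLocalRing
  have hfp : Module.FinitePresentation V ((s → V) ⧸ LinearMap.range E) :=
    Module.finitePresentation_of_projective V _
  have hfg := Module.FinitePresentation.fg_ker (LinearMap.range E).mkQ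
    (Submodule.mkQ_surjective _)
  rw [Submodule.ker_mkQ] at hfg
  have : Module.Finite V (LinearMap.range E) := Module.Finite.iff_fg.mpr hfg
  exact Module.Finite.equiv (LinearEquiv.ofInjective E hE).symm

/-- reduction is nonzero -/
theorem mem_smul_of_res {s : Finset Γ} (hs : Subgroup.closure (s : Set Γ) = ⊤)
    (x : HP P V V) (h : ∀ γ : Γ, x.1 (Additive.ofMul γ) ∈ maximalIdeal V) :
    x ∈ (maximalIdeal V • ⊤ : Submodule V (HP P V V)) := by
  obtain ⟨γ₀, hγ⟩ := exists_dvd hs x.1
  by_cases hc : x.1 (Additive.ofMul γ₀) = 0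
  · have : x = 0 := by
      apply Subtype.ext
      refine AddMonoidHom.ext fun γ => ?_
      have := hγ (Additive.toMul γ)
      rw [hc, zero_dvd_iff] at this
      exact this
    rw [this]
    exact zero_mem _
  · obtain ⟨y, hy⟩ := exists_div x.1 hc hγ
    have h1 : x = x.1 (Additive.ofMul γ₀) • (⟨y, mem_HP_of_smul hc (hy ▸ x.2)⟩ : HP P V V) :=
      Subtype.ext hy
    rw [h1]
    exact Submodule.smul_mem_smul (h γ₀) trivial

end val

/-- common denominators -/
theorem exists_int {V K : Type*} [CommRing V] [IsDomain V] [Field K] [Algebra V K]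
    [IsFractionRing V K] {s : Finset Γ} (hs : Subgroup.closure (s : Set Γ) = ⊤)
    (x : Additive Γ →+ K) (hx : ∀ γ ∈ P, x (Additive.ofMul γ) = 0) :
    ∃ (c : V) (y : HP P V V), c ≠ 0 ∧
      c • x = (algebraMap V K : V →+ K).comp y.1 := by
  classical
  obtain ⟨b, hb⟩ := IsLocalization.exist_integer_multiples_of_finset (nonZeroDivisors V)
    (s.image fun γ => x (Additive.ofMul γ))
  have hinj : Function.Injective (algebraMap V K) := IsFractionRing.injective V K
  have h1 : ∀ γ : Γ, ∃ v : V, algebraMap V K v = ((b : V) • x) (Additive.ofMul γ) := by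
    intro γ
    exact mem_of_gen hs ((b : V) • x) (algebraMap V K : V →+ K).range (fun γ hγ => by
      obtain ⟨v, hv⟩ := hb _ (Finset.mem_image_of_mem _ hγ)
      exact ⟨v, hv⟩) γ
  choose y hy using h1
  refine ⟨b, ⟨AddMonoidHom.mk' (fun γ => y (Additive.toMul γ)) fun a b => ?_, ?_⟩,
    nonZeroDivisors.ne_zero b.2, ?_⟩
  · apply hinj
    rw [(algebraMap V K).map_add, hy, hy, hy, ofMul_toMul, ofMul_toMul, ofMul_toMul]
    exact map_add _ a b
  · intro γ hγ
    apply hinj
    rw [map_zero]
    refine (hy γ).trans ?_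
    change (b : V) • x (Additive.ofMul γ) = 0
    rw [hx γ hγ, smul_zero]
  · refine AddMonoidHom.ext fun γ => ?_
    exact (hy (Additive.toMul γ)).symm

end grp

universe u

/-- **Existence of an eigenclass mod `𝔪`.** -/
theorem exists_eigenclass {K : Type u} [Field K] (V : ValuationSubring K) {Γ : Type*} [Group Γ]
    {s : Finset Γ} (hs : Subgroup.closure (s : Set Γ) = ⊤) (P : Set Γ) {ι : Type*}
    (T : ι → ∀ (A : Type u) [AddCommGroup A], (Additive Γ →+ A) →+ (Additive Γ →+ A))
    (hnat : ∀ (i : ι) (A B : Type u) [AddCommGroup A] [AddCommGroup B] (f : A →+ B)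
      (x : Additive Γ →+ A), T i B (f.comp x) = f.comp (T i A x))
    (hP : ∀ (i : ι) (x : Additive Γ →+ V), (∀ γ ∈ P, x (Additive.ofMul γ) = 0) →
      ∀ γ ∈ P, T i V x (Additive.ofMul γ) = 0)
    (hc : ∀ (i j : ι) (x : Additive Γ →+ V), (∀ γ ∈ P, x (Additive.ofMul γ) = 0) →
      T i V (T j V x) = T j V (T i V x))
    {S : Type*} [AddCommGroup S] [Module K S] (T' : ι → S → S)
    (Φ : S →ₗ[K] (Additive Γ →+ K)) (hΦ : Function.Injective Φ)
    (hΦP : ∀ x, ∀ γ ∈ P, Φ x (Additive.ofMul γ) = 0)
    (hΦT : ∀ i x, Φ (T' i x) = T i K (Φ x))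
    (L : AddSubgroup S) (hL : ∀ c ∈ V, ∀ x ∈ L, c • x ∈ L) (hLT : ∀ i, ∀ x ∈ L, T' i x ∈ L)
    (a : ι → V) {G : S} (hG : G ∉ L) (hGa : ∀ i, T' i G - (a i : K) • G ∈ L) :
    ∃ F : Additive Γ →+ ResidueField V, F ≠ 0 ∧ (∀ γ ∈ P, F (Additive.ofMul γ) = 0) ∧
      ∀ i, T i (ResidueField V) F = residue V (a i) • F := by
  let _ : Module V S := Module.compHom S (algebraMap V K)
  -- linearity
  have hsm : ∀ (i : ι) (c : K) (x : Additive Γ →+ K), T i K (c • x) = c • T i K x := by
    intro i c x
    exact hnat i K K (AddMonoidHom.mulLeft c) x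
  have hsmV : ∀ (i : ι) (c : V) (x : Additive Γ →+ V), T i V (c • x) = c • T i V x := by
    intro i c x
    exact hnat i V V (AddMonoidHom.mulLeft c) x
  let TV : ι → Module.End V (HP P V V) := fun i =>
    { toFun := fun x => ⟨T i V x.1, hP i x.1 x.2⟩
      map_add' := fun x y => Subtype.ext (map_add (T i V) x.1 y.1)
      map_smul' := fun c x => Subtype.ext (hsmV i c x.1) }
  let TK : ι → Module.End V (Additive Γ →+ K) := fun i =>
    { toFun := fun x => T i K x
      map_add' := fun x y => map_add (T i K) x y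
      map_smul' := fun c x => hsm i c x }
  let TS : ι → Module.End V S := fun i =>
    { toFun := T' i
      map_add' := fun x y => hΦ (by rw [hΦT, map_add, map_add, map_add, hΦT, hΦT])
      map_smul' := fun c x => hΦ (by
        change Φ (T' i ((c : K) • x)) = Φ ((c : K) • T' i x)
        rw [hΦT, Φ.map_smul, Φ.map_smul, hΦT, hsm]) }
  let ΦV : S →ₗ[V] (Additive Γ →+ K) :=
    { toFun := Φ
      map_add' := map_add Φ
      map_smul' := fun c x => map_smul Φ (c : K) x }
  let j : HP P V V →ₗ[V] (Additive Γ →+ K) :=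
    { toFun := fun x => (algebraMap V K : V →+ K).comp x.1
      map_add' := fun x y => AddMonoidHom.ext fun γ => map_add (algebraMap V K) _ _
      map_smul' := fun c x => AddMonoidHom.ext fun γ => map_mul (algebraMap V K) _ _ }
  let L' : Submodule V S :=
    { L with smul_mem' := fun c x hx => hL c c.2 x hx }
  have hfin : Module.Finite V (HP P V V) := finite_HP hs
  obtain ⟨x, hx, hxa⟩ := exists_eigen' TV (fun i k => LinearMap.ext fun x =>
      Subtype.ext (hc i k x.1 x.2)) TS (L₁ := L') hLT a G hG hGa fun w hw => by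
    apply hΦ
    have h1 : Φ (FreeAlgebra.lift V TS w G) = FreeAlgebra.lift V TK w (Φ G) :=
      map_lift TS TK ΦV (fun i x => hΦT i x) w G
    rw [h1, map_zero]
    obtain ⟨c, y, hc0, hy⟩ := exists_int (V := V) hs (Φ G) (hΦP G)
    have h2 : j (FreeAlgebra.lift V TV w y) = FreeAlgebra.lift V TK w (j y) :=
      map_lift TV TK j (fun i x => (hnat i V K (algebraMap V K : V →+ K) x.1).symm) w y
    rw [hw, LinearMap.zero_apply, map_zero] at h2
    have h3 : j y = c • Φ G := hy.symm
    rw [h3, map_smul] at h2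
    refine AddMonoidHom.ext fun γ => ?_
    have h4 := DFunLike.congr_fun h2 γ
    have h5 : (algebraMap V K c) * (FreeAlgebra.lift V TK w (Φ G)) γ = 0 := by
      rw [← Algebra.smul_def]
      exact h4.symm
    exact (mul_eq_zero.mp h5).resolve_left fun h =>
      hc0 ((IsFractionRing.injective V K) (by rw [h, map_zero]))
  refine ⟨(residue V : V →+ ResidueField V).comp x.1, fun h => hx ?_, fun γ hγ => ?_,
    fun i => ?_⟩
  · exact mem_smul_of_res hs x fun γ => (residue_eq_zero_iff _).mp (DFunLike.congr_fun h _)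
  · change residue V (x.1 (Additive.ofMul γ)) = 0
    rw [x.2 γ hγ, map_zero]
  · rw [hnat]
    have h1 : ∀ y ∈ (maximalIdeal V • ⊤ : Submodule V (HP P V V)),
        (residue V : V →+ ResidueField V).comp y.1 = 0 := by
      intro y hy
      induction hy using Submodule.smul_induction_on' with
      | smul r hr n _ =>
        refine AddMonoidHom.ext fun γ => ?_
        change residue V (r * n.1 γ) = 0
        rw [map_mul, (residue_eq_zero_iff _).mpr hr, zero_mul]
      | add y _ z _ hy hz =>
        refine AddMonoidHom.ext fun γ => ?_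
        change residue V (y.1 γ + z.1 γ) = 0
        rw [map_add]
        exact (congrArg₂ (· + ·) (DFunLike.congr_fun hy γ) (DFunLike.congr_fun hz γ)).trans
          (add_zero _)
    have h2 := h1 _ (hxa i)
    refine AddMonoidHom.ext fun γ => ?_
    have h3 := DFunLike.congr_fun h2 γ
    change residue V (T i V x.1 γ - a i * x.1 γ) = 0 at h3
    rw [map_sub, map_mul, sub_eq_zero] at h3
    exact h3

end Fermat.Agent.DSupp
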