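import Mathlib

/-!
The support argument: a system of eigenvalues mod `𝔪` which is compatible with the relations
between the operators occurs in `H / 𝔪 H`.
-/

set_option autoImplicit false

noncomputable section

namespace Fermat.Agent.DSupp

open IsLocalRing

section field

variable {k M ι : Type*} [Field k]

theorem comm_case {R : Type*} [CommRing R] [Algebra k R] [Module.Finite k R]
    [AddCommGroup M] [Module k M] [FiniteDimensional k M] [Module R M] [IsScalarTower k R M]
    (hf : ∀ r : R, (∀ x : M, r • x = 0) → r = 0) (ρ : FreeAlgebra k ι →ₐ[k] R)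
    (hρ : Function.Surjective ρ) (a : ι → k)
    (h : ∀ x : M, (∀ i, ρ (FreeAlgebra.ι k i) • x = a i • x) → x = 0) :
    ∃ w : FreeAlgebra k ι, FreeAlgebra.lift k a w = 0 ∧ ρ w = 1 := by
  classical
  have hart : IsArtinianRing R := IsArtinianRing.of_finite k R
  let J : Ideal R :=
    { carrier := {r | ∃ w, FreeAlgebra.lift k a w = 0 ∧ ρ w = r}
      add_mem' := by
        rintro _ _ ⟨w, hw, rfl⟩ ⟨w', hw', rfl⟩
        exact ⟨w + w', by rw [map_add, hw, hw', add_zero], map_add _ _ _⟩
      zero_mem' := ⟨0, map_zero _, map_zero _⟩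
      smul_mem' := by
        rintro c _ ⟨w, hw, rfl⟩
        obtain ⟨c', rfl⟩ := hρ c
        exact ⟨c' * w, by rw [map_mul, hw, mul_zero], map_mul _ _ _⟩ }
  by_cases hJ : J = ⊤
  · obtain ⟨w, hw, hw1⟩ : (1 : R) ∈ J := by rw [hJ]; trivial
    exact ⟨w, hw, hw1⟩
  · exfalso
    obtain ⟨P, hP, hJP⟩ := Ideal.exists_le_maximal J hJ
    have hfin : Module.Finite R M := Module.Finite.of_restrictScalars_finite k R M
    have hann : Module.annihilator R M = ⊥ := by
      rw [eq_bot_iff]
      intro r hr
      rw [Module.mem_annihilator] at hr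
      exact hf r hr
    have hmin : P ∈ (Module.annihilator R M).minimalPrimes := by
      rw [hann]
      have : P.IsPrime := hP.isPrime
      exact ⟨⟨hP.isPrime, bot_le⟩, fun Q hQ hQP => by
        have := hQ.1
        have hQm : Q.IsMaximal := IsArtinianRing.isMaximal_of_isPrime Q
        exact (hQm.eq_of_le hP.ne_top hQP).symm.le⟩
    have hass : IsAssociatedPrime P M :=
      Module.associatedPrimes.minimalPrimes_annihilator_subset_associatedPrimes R M hmin
    obtain ⟨-, x, hx⟩ := Submodule.isAssociatedPrime_iff.mp hass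
    have hx' : ∀ r : R, r ∈ P ↔ r • x = 0 := fun r => by
      rw [hx]
      simp [Submodule.mem_colon_singleton]
    have hx0 : x = 0 := by
      refine h x fun i => ?_
      have h1 : ρ (FreeAlgebra.ι k i - algebraMap k _ (a i)) ∈ P := hJP
        ⟨_, by rw [map_sub, FreeAlgebra.lift_ι_apply, AlgHom.commutes]; exact sub_self _, rfl⟩
      rw [hx', map_sub, AlgHom.commutes, sub_smul, sub_eq_zero, algebraMap_smul] at h1
      exact h1
    exact hP.ne_top ((Ideal.eq_top_iff_one _).mpr ((hx' 1).mpr (by rw [hx0, smul_zero])))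

theorem commute_lift {R : Type*} [CommRing R] {N : Type*} [AddCommGroup N] [Module R N]
    {S : ι → Module.End R N} (hS : ∀ i j, Commute (S i) (S j)) (x y : FreeAlgebra R ι) :
    Commute (FreeAlgebra.lift R S x) (FreeAlgebra.lift R S y) := by
  induction x using FreeAlgebra.induction with
  | grade0 r => rw [AlgHom.commutes]; exact Algebra.commutes r _
  | grade1 i =>
    rw [FreeAlgebra.lift_ι_apply]
    induction y using FreeAlgebra.induction with
    | grade0 r => rw [AlgHom.commutes]; exact (Algebra.commutes r _).symm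
    | grade1 j => rw [FreeAlgebra.lift_ι_apply]; exact hS i j
    | mul a b ha hb => rw [map_mul]; exact ha.mul_right hb
    | add a b ha hb => rw [map_add]; exact ha.add_right hb
  | mul a b ha hb => rw [map_mul]; exact ha.mul_left hb
  | add a b ha hb => rw [map_add]; exact ha.add_left hb

variable [AddCommGroup M] [Module k M] [FiniteDimensional k M]

/-- the commutative ring generated by commuting operators -/
abbrev comRing {S : ι → Module.End k M} (hS : ∀ i j, Commute (S i) (S j)) :
    CommRing (FreeAlgebra.lift k S).range :=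
  { (FreeAlgebra.lift k S).range.toRing with
    mul_comm := by
      rintro ⟨x, x', hx⟩ ⟨y, y', hy⟩
      apply Subtype.ext
      have h1 := commute_lift hS x' y'
      have h2 : FreeAlgebra.lift k S x' = x := hx
      have h3 : FreeAlgebra.lift k S y' = y := hy
      rw [h2, h3] at h1
      exact h1 }

/-- either an eigenvector or a relation -/
theorem field_case {S : ι → Module.End k M} (hS : ∀ i j, Commute (S i) (S j)) (a : ι → k)
    (h : ∀ x : M, (∀ i, S i x = a i • x) → x = 0) :
    ∃ w : FreeAlgebra k ι, FreeAlgebra.lift k a w = 0 ∧ FreeAlgebra.lift k S w = 1 := by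
  let _ := comRing hS
  obtain ⟨w, hw, hw1⟩ := comm_case (k := k) (M := M) (R := (FreeAlgebra.lift k S).range)
    (fun r hr => Subtype.ext (LinearMap.ext hr)) (FreeAlgebra.lift k S).rangeRestrict
    (AlgHom.rangeRestrict_surjective _) a (fun x hx => h x fun i => by
      rw [← hx i]
      change S i x = (FreeAlgebra.lift k S (FreeAlgebra.ι k i)) x
      rw [FreeAlgebra.lift_ι_apply])
  exact ⟨w, hw, congrArg Subtype.val hw1⟩

end field

section loc

variable {V : Type*} [CommRing V] {H L ι : Type*} [AddCommGroup H] [Module V H]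
  [AddCommGroup L] [Module V L]

/-- reduction of an operator -/
def redEnd (I : Ideal V) (f : Module.End V H) :
    Module.End (V ⧸ I) (H ⧸ (I • ⊤ : Submodule V H)) where
  toFun := Submodule.mapQ (I • ⊤) (I • ⊤) f (by
    rw [Submodule.smul_le]
    intro r hr x _
    rw [Submodule.mem_comap, map_smul]
    exact Submodule.smul_mem_smul hr trivial)
  map_add' := map_add _
  map_smul' := by
    rintro ⟨r⟩ x
    exact LinearMap.map_smul _ r x

@[simp]
theorem redEnd_mk (I : Ideal V) (f : Module.End V H) (x : H) :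
    redEnd I f (Submodule.Quotient.mk x) = Submodule.Quotient.mk (f x) := rfl

/-- reduction of the coefficients -/
abbrev redFree (I : Ideal V) (ι : Type*) : FreeAlgebra V ι →ₐ[V] FreeAlgebra (V ⧸ I) ι :=
  FreeAlgebra.lift V (FreeAlgebra.ι (V ⧸ I))

theorem redFree_surjective (I : Ideal V) : Function.Surjective (redFree I ι) := by
  intro w
  induction w using FreeAlgebra.induction with
  | grade0 r =>
    obtain ⟨r, rfl⟩ := Ideal.Quotient.mk_surjective r
    exact ⟨algebraMap V _ r, AlgHom.commutes _ _⟩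
  | grade1 i => exact ⟨FreeAlgebra.ι V i, FreeAlgebra.lift_ι_apply _ _⟩
  | mul a b ha hb =>
    obtain ⟨a, rfl⟩ := ha
    obtain ⟨b, rfl⟩ := hb
    exact ⟨a * b, map_mul _ _ _⟩
  | add a b ha hb =>
    obtain ⟨a, rfl⟩ := ha
    obtain ⟨b, rfl⟩ := hb
    exact ⟨a + b, map_add _ _ _⟩

theorem redFree_algebraMap (I : Ideal V) (r : V) :
    redFree I ι (algebraMap V _ r) = algebraMap (V ⧸ I) _ (Ideal.Quotient.mk I r) :=
  AlgHom.commutes _ r

theorem redFree_ι (I : Ideal V) (i : ι) :
    redFree I ι (FreeAlgebra.ι V i) = FreeAlgebra.ι (V ⧸ I) i := FreeAlgebra.lift_ι_apply _ _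

theorem lift_redFree' (I : Ideal V) (a : ι → V) (w : FreeAlgebra V ι) :
    FreeAlgebra.lift (V ⧸ I) (fun i => Ideal.Quotient.mk I (a i)) (redFree I ι w) =
      Ideal.Quotient.mk I (FreeAlgebra.lift V a w) := by
  set χ := FreeAlgebra.lift (V ⧸ I) (fun i => Ideal.Quotient.mk I (a i)) with hχ
  induction w using FreeAlgebra.induction with
  | grade0 r =>
    rw [redFree_algebraMap]
    have h1 : χ (algebraMap (V ⧸ I) _ (Ideal.Quotient.mk I r)) = Ideal.Quotient.mk I r :=
      AlgHom.commutes χ _
    have h2 : FreeAlgebra.lift V a (algebraMap V _ r) = r := AlgHom.commutes _ r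
    rw [h1, h2]
  | grade1 i =>
    rw [redFree_ι, hχ, FreeAlgebra.lift_ι_apply, FreeAlgebra.lift_ι_apply]
  | mul a b ha hb => rw [map_mul, map_mul, map_mul, ha, hb, map_mul]
  | add a b ha hb => rw [map_add, map_add, map_add, ha, hb, map_add]

theorem lift_redFree (I : Ideal V) (T : ι → Module.End V H) (w : FreeAlgebra V ι) (x : H) :
    FreeAlgebra.lift (V ⧸ I) (fun i => redEnd I (T i)) (redFree I ι w)
      (Submodule.Quotient.mk x : H ⧸ (I • ⊤ : Submodule V H)) =
      Submodule.Quotient.mk (FreeAlgebra.lift V T w x) := by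
  set χ := FreeAlgebra.lift (V ⧸ I) (fun i => redEnd I (T i)) with hχ
  induction w using FreeAlgebra.induction generalizing x with
  | grade0 r =>
    rw [redFree_algebraMap]
    have h1 : χ (algebraMap (V ⧸ I) _ (Ideal.Quotient.mk I r)) =
      algebraMap (V ⧸ I) _ (Ideal.Quotient.mk I r) := AlgHom.commutes χ _
    have h2 : FreeAlgebra.lift V T (algebraMap V _ r) = algebraMap V _ r := AlgHom.commutes _ r
    rw [h1, h2]
    rfl
  | grade1 i =>
    rw [redFree_ι, hχ, FreeAlgebra.lift_ι_apply, FreeAlgebra.lift_ι_apply, redEnd_mk]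
  | mul a b ha hb =>
    rw [map_mul, map_mul, map_mul, Module.End.mul_apply, Module.End.mul_apply, hb, ha]
  | add a b ha hb =>
    rw [map_add, map_add, map_add, LinearMap.add_apply, LinearMap.add_apply, ha, hb]
    rfl

/-- operators act on an eigenvector mod `L₁` through the eigenvalues -/
theorem lift_apply_sub_mem {L₁ : Submodule V L} (T : ι → Module.End V L)
    (hst : ∀ i, ∀ x ∈ L₁, T i x ∈ L₁) (a : ι → V) (G : L)
    (hG : ∀ i, T i G - a i • G ∈ L₁) (w : FreeAlgebra V ι) :
    (∀ x ∈ L₁, FreeAlgebra.lift V T w x ∈ L₁) ∧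
      FreeAlgebra.lift V T w G - FreeAlgebra.lift V a w • G ∈ L₁ := by
  induction w using FreeAlgebra.induction with
  | grade0 r =>
    rw [AlgHom.commutes, AlgHom.commutes]
    have h1 : (algebraMap V (Module.End V L) r) G - (algebraMap V V r) • G = 0 := by
      rw [Module.algebraMap_end_apply, Algebra.algebraMap_self_apply, sub_self]
    rw [h1]
    exact ⟨fun x hx => L₁.smul_mem r hx, zero_mem _⟩
  | grade1 i => rw [FreeAlgebra.lift_ι_apply, FreeAlgebra.lift_ι_apply]; exact ⟨hst i, hG i⟩
  | mul w₁ w₂ h₁ h₂ =>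
    rw [map_mul, map_mul]
    refine ⟨fun x hx => h₁.1 _ (h₂.1 x hx), ?_⟩
    rw [Module.End.mul_apply]
    have h3 := add_mem (h₁.1 _ h₂.2) (Submodule.smul_mem _ (FreeAlgebra.lift V a w₂) h₁.2)
    rw [map_sub, map_smul, smul_sub, sub_add_sub_cancel, smul_smul,
      mul_comm (FreeAlgebra.lift V a w₂)] at h3
    exact h3
  | add w₁ w₂ h₁ h₂ =>
    rw [map_add, map_add]
    refine ⟨fun x hx => add_mem (h₁.1 x hx) (h₂.1 x hx), ?_⟩
    rw [LinearMap.add_apply, add_smul, add_sub_add_comm]
    exact add_mem h₁.2 h₂.2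

variable [IsLocalRing V] [Module.Finite V H]

/-- **The support argument.** -/
theorem exists_eigen' (T : ι → Module.End V H) (hT : ∀ i j, Commute (T i) (T j))
    (T' : ι → Module.End V L) {L₁ : Submodule V L} (hst : ∀ i, ∀ x ∈ L₁, T' i x ∈ L₁)
    (a : ι → V) (G : L) (hG : G ∉ L₁) (hGa : ∀ i, T' i G - a i • G ∈ L₁)
    (hinj : ∀ w : FreeAlgebra V ι, FreeAlgebra.lift V T w = 0 → FreeAlgebra.lift V T' w G = 0) :
    ∃ x : H, x ∉ (maximalIdeal V • ⊤ : Submodule V H) ∧
      ∀ i, T i x - a i • x ∈ (maximalIdeal V • ⊤ : Submodule V H) := by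
  classical
  by_contra hcon
  push Not at hcon
  let _ : Field (V ⧸ maximalIdeal V) := Ideal.Quotient.field _
  have hS : ∀ i j, Commute (redEnd (maximalIdeal V) (T i)) (redEnd (maximalIdeal V) (T j)) := by
    intro i j
    refine LinearMap.ext fun x => ?_
    obtain ⟨x, rfl⟩ := Submodule.Quotient.mk_surjective _ x
    have h1 := congrArg (fun f : Module.End V H => f x) (hT i j).eq
    exact congrArg Submodule.Quotient.mk h1
  obtain ⟨w₀, hw₀, hw₁⟩ := field_case hS (fun i => Ideal.Quotient.mk (maximalIdeal V) (a i))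
    (fun x hx => by
      obtain ⟨x, rfl⟩ := Submodule.Quotient.mk_surjective _ x
      by_contra hx0
      have h1 : x ∉ (maximalIdeal V • ⊤ : Submodule V H) := fun h =>
        hx0 ((Submodule.Quotient.mk_eq_zero _).mpr h)
      obtain ⟨i, hi⟩ := hcon x h1
      refine hi ?_
      have h2 := hx i
      rw [redEnd_mk] at h2
      exact (Submodule.Quotient.eq _).mp h2)
  obtain ⟨w, rfl⟩ := redFree_surjective _ w₀
  rw [lift_redFree', Ideal.Quotient.eq_zero_iff_mem] at hw₀
  set B := FreeAlgebra.lift V T w with hB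
  have hrange : LinearMap.range (1 - B) ≤ maximalIdeal V • ⊤ := by
    rintro _ ⟨x, rfl⟩
    have h2 : (Submodule.Quotient.mk (B x) : H ⧸ (maximalIdeal V • ⊤ : Submodule V H)) =
        Submodule.Quotient.mk x := by
      rw [hB, ← lift_redFree, hw₁]
      rfl
    exact (Submodule.Quotient.eq _).mp h2.symm
  obtain ⟨P, hmonic, -, hcoeff, hP⟩ :=
    LinearMap.exists_monic_and_natDegree_eq_and_coeff_mem_pow_and_aeval_eq_zero V _ _ hrange
  set v := Polynomial.aeval (1 - w) P with hv
  have hTv : FreeAlgebra.lift V T v = 0 := by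
    rw [hv, ← Polynomial.aeval_algHom_apply, map_sub, map_one, ← hB, hP]
  have h1 := (lift_apply_sub_mem T' hst a G hGa v).2
  rw [hinj v hTv, zero_sub, neg_mem_iff] at h1
  have hunit : IsUnit (FreeAlgebra.lift V a v) := by
    rw [← notMem_maximalIdeal, ← Ideal.Quotient.eq_zero_iff_mem]
    have h2 : FreeAlgebra.lift V a v = P.eval (1 - FreeAlgebra.lift V a w) := by
      rw [hv, ← Polynomial.aeval_algHom_apply, map_sub, map_one, Polynomial.coe_aeval_eq_eval]
    have h3 : P.map (Ideal.Quotient.mk (maximalIdeal V)) = Polynomial.X ^ P.natDegree := by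
      ext j
      rw [Polynomial.coeff_map, Polynomial.coeff_X_pow]
      split_ifs with hj
      · rw [hj, hmonic.coeff_natDegree, map_one]
      · rcases lt_or_gt_of_ne hj with hj | hj
        · rw [Ideal.Quotient.eq_zero_iff_mem]
          exact Ideal.pow_le_self (by omega) (hcoeff j)
        · rw [Polynomial.coeff_eq_zero_of_natDegree_lt hj, map_zero]
    rw [h2, ← Polynomial.eval₂_at_apply, ← Polynomial.eval_map, h3, Polynomial.eval_pow,
      Polynomial.eval_X, map_sub, map_one, Ideal.Quotient.eq_zero_iff_mem.mpr hw₀, sub_zero,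
      one_pow]
    exact one_ne_zero
  apply hG
  obtain ⟨u, hu⟩ := hunit
  have h2 := Submodule.smul_mem _ (↑u⁻¹ : V) h1
  rwa [← hu, smul_smul, Units.inv_mul, one_smul] at h2

/-- **The support argument.** -/
theorem exists_eigen (T : ι → Module.End V H) (hT : ∀ i j, Commute (T i) (T j))
    (T' : ι → Module.End V L) (a : ι → V) (G : L)
    (hG : G ∉ (maximalIdeal V • ⊤ : Submodule V L))
    (hGa : ∀ i, T' i G - a i • G ∈ (maximalIdeal V • ⊤ : Submodule V L))
    (hinj : ∀ w : FreeAlgebra V ι, FreeAlgebra.lift V T w = 0 → FreeAlgebra.lift V T' w G = 0) :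
    ∃ x : H, x ∉ (maximalIdeal V • ⊤ : Submodule V H) ∧
      ∀ i, T i x - a i • x ∈ (maximalIdeal V • ⊤ : Submodule V H) := by
  refine exists_eigen' T hT T' (fun i x hx => ?_) a G hG hGa hinj
  have h1 : (maximalIdeal V • ⊤ : Submodule V L) ≤
      (maximalIdeal V • ⊤ : Submodule V L).comap (T' i) := by
    rw [Submodule.smul_le]
    intro r hr y _
    rw [Submodule.mem_comap, map_smul]
    exact Submodule.smul_mem_smul hr trivial
  exact h1 hx

end loc

end Fermat.Agent.DSupp
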